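import Mathlib

/-! # S48 (C2): fixed points on `ℙ¹(k)` of a matrix of finite order prime to the characteristic -/

set_option autoImplicit false

namespace Fermat.Agent.S48.C2

open Polynomial Matrix
open scoped LinearAlgebra.Projectivization

variable {k : Type*} [Field k]

/-- a `2 × 2` matrix of finite order prime to the characteristic over an algebraically closed field is
scalar or has two eigenvectors with distinct eigenvalues. -/
theorem scalar_or_eigen [IsAlgClosed k] (M : Matrix (Fin 2) (Fin 2) k) {m : ℕ} (hM : M ^ m = 1)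
    (hm : (m : k) ≠ 0) :
    (∃ c : k, M = c • (1 : Matrix (Fin 2) (Fin 2) k)) ∨
      ∃ (α β : k) (u v : Fin 2 → k), α ≠ β ∧ u ≠ 0 ∧ v ≠ 0 ∧ M *ᵥ u = α • u ∧ M *ᵥ v = β • v := by
  by_cases hsc : ∃ c : k, M = c • (1 : Matrix (Fin 2) (Fin 2) k)
  · exact Or.inl hsc
  right
  push Not at hsc
  -- Cayley-Hamilton
  have hCH : M ^ 2 - M.trace • M + M.det • (1 : Matrix (Fin 2) (Fin 2) k) = 0 := by
    have := Matrix.aeval_self_charpoly M
    rw [Matrix.charpoly_fin_two] at this
    simp only [map_add, map_sub, map_mul, map_pow, aeval_X, aeval_C,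
      Algebra.algebraMap_eq_smul_one, smul_mul_assoc, one_mul] at this
    exact this
  obtain ⟨α, hα⟩ := IsAlgClosed.exists_root M.charpoly (by
    rw [Matrix.charpoly_degree_eq_dim]; simp)
  rw [Matrix.charpoly_fin_two] at hα
  have hα' : α ^ 2 - M.trace * α + M.det = 0 := by simpa using hα
  set β : k := M.trace - α with hβ
  have hprod : ∀ a b : k, a + b = M.trace → a * b = M.det →
      (M - a • (1 : Matrix (Fin 2) (Fin 2) k)) * (M - b • (1 : Matrix (Fin 2) (Fin 2) k)) = 0 := by
    intro a b hab hab'
    rw [← hCH, ← hab, ← hab']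
    simp only [sub_mul, mul_sub, smul_mul_assoc, mul_smul_comm, one_mul, mul_one, pow_two]
    module
  have h1 := hprod α β (by rw [hβ]; ring) (by rw [hβ]; linear_combination -hα')
  have h2 := hprod β α (by rw [hβ]; ring) (by rw [hβ]; linear_combination -hα')
  have hne : α ≠ β := by
    intro hab
    rw [← hab] at h1
    apply hsc α
    have hsq : Squarefree (minpoly k M) :=
      (Polynomial.separable_X_pow_sub_C (1 : k) hm one_ne_zero).squarefree.squarefree_of_dvd
        (minpoly.dvd k M (by simp [hM]))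
    have hdvd : minpoly k M ∣ (X - C α) ^ 2 := minpoly.dvd k M (by
      rw [pow_two, map_mul]
      simp only [map_sub, aeval_X, aeval_C, Algebra.algebraMap_eq_smul_one]
      exact h1)
    obtain ⟨r, hr⟩ := (hsq.dvd_pow_iff_dvd two_ne_zero).1 hdvd
    have h3 : aeval M (X - C α) = 0 := by rw [hr, map_mul, minpoly.aeval, zero_mul]
    simp only [map_sub, aeval_X, aeval_C, Algebra.algebraMap_eq_smul_one] at h3
    exact sub_eq_zero.1 h3
  have hex : ∀ c : k, ∃ w : Fin 2 → k, (M - c • (1 : Matrix (Fin 2) (Fin 2) k)) *ᵥ w ≠ 0 := by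
    intro c
    by_contra hcon
    push Not at hcon
    apply hsc c
    rw [← sub_eq_zero]
    exact Matrix.ext_iff_mulVec.2 (by simpa using hcon)
  have heig : ∀ (a : k) (u : Fin 2 → k), (M - a • (1 : Matrix (Fin 2) (Fin 2) k)) *ᵥ u = 0 →
      M *ᵥ u = a • u := by
    intro a u hu
    rw [Matrix.sub_mulVec, Matrix.smul_mulVec, Matrix.one_mulVec] at hu
    exact sub_eq_zero.1 hu
  obtain ⟨w, hw⟩ := hex β
  obtain ⟨w', hw'⟩ := hex α
  refine ⟨α, β, _, _, hne, hw, hw', heig _ _ ?_, heig _ _ ?_⟩
  · rw [Matrix.mulVec_mulVec, h1, Matrix.zero_mulVec]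
  · rw [Matrix.mulVec_mulVec, h2, Matrix.zero_mulVec]

theorem smul_mk_eq_iff (g : GL (Fin 2) k) {w : Fin 2 → k} (hw : w ≠ 0) :
    g • Projectivization.mk k w hw = Projectivization.mk k w hw ↔
      ∃ c : k, c ≠ 0 ∧ (g : Matrix (Fin 2) (Fin 2) k) *ᵥ w = c • w := by
  rw [Projectivization.smul_mk, Projectivization.mk_eq_mk_iff]
  constructor
  · rintro ⟨a, ha⟩
    exact ⟨a, a.ne_zero, ha.symm⟩
  · rintro ⟨c, hc, h⟩
    exact ⟨Units.mk0 c hc, h.symm⟩

/-- an element of `GL₂(k)` of finite order prime to the characteristic acts trivially on `ℙ¹(k)` or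
has exactly two fixed points. -/
theorem fixedBy_ncard [IsAlgClosed k] (g : GL (Fin 2) k) {m : ℕ} (hg : g ^ m = 1)
    (hm : (m : k) ≠ 0) :
    (∀ x : ℙ k (Fin 2 → k), g • x = x) ∨ (MulAction.fixedBy (ℙ k (Fin 2 → k)) g).ncard = 2 := by
  have hM : (g : Matrix (Fin 2) (Fin 2) k) ^ m = 1 := by
    rw [← Units.val_pow_eq_pow_val, hg, Units.val_one]
  have hinj : ∀ w : Fin 2 → k, w ≠ 0 → (g : Matrix (Fin 2) (Fin 2) k) *ᵥ w ≠ 0 := fun w hw =>
    (smul_ne_zero_iff_ne g).mpr hw
  rcases scalar_or_eigen (g : Matrix (Fin 2) (Fin 2) k) hM hm with ⟨c, hc⟩ | ⟨α, β, u, v, hne, hu, hv,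
    hMu, hMv⟩
  · left
    intro x
    induction x using Projectivization.ind with
    | h w hw =>
      have h1 : (g : Matrix (Fin 2) (Fin 2) k) *ᵥ w = c • w := by
        rw [hc, Matrix.smul_mulVec, Matrix.one_mulVec]
      refine (smul_mk_eq_iff g hw).2 ⟨c, ?_, h1⟩
      rintro rfl
      exact hinj w hw (by rw [h1, zero_smul])
  · right
    have hα : α ≠ 0 := by
      rintro rfl
      exact hinj u hu (by rw [hMu, zero_smul])
    have hβ : β ≠ 0 := by
      rintro rfl
      exact hinj v hv (by rw [hMv, zero_smul])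
    have hli : LinearIndependent k ![u, v] := by
      rw [LinearIndependent.pair_iff]
      intro s t hst
      have h1 : (g : Matrix (Fin 2) (Fin 2) k) *ᵥ (s • u + t • v) = 0 := by
        rw [hst, Matrix.mulVec_zero]
      rw [Matrix.mulVec_add, Matrix.mulVec_smul, Matrix.mulVec_smul, hMu, hMv] at h1
      have h2 : (s * (α - β)) • u = 0 := by
        have : (s * (α - β)) • u = (s • α • u + t • β • v) - β • (s • u + t • v) := by module
        rw [this, h1, hst, smul_zero, sub_zero]
      have hs : s = 0 := by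
        rcases smul_eq_zero.1 h2 with h | h
        · exact (mul_eq_zero.1 h).resolve_right (sub_ne_zero.2 hne)
        · exact absurd h hu
      subst hs
      rw [zero_smul, zero_add] at hst
      exact ⟨rfl, (smul_eq_zero.1 hst).resolve_right hv⟩
    have hspan : Submodule.span k {u, v} = ⊤ := by
      have := hli.span_eq_top_of_card_eq_finrank' (by simp)
      simpa [Matrix.range_cons, Matrix.range_empty, Set.pair_comm] using this
    have hset : MulAction.fixedBy (ℙ k (Fin 2 → k)) g =
        {Projectivization.mk k u hu, Projectivization.mk k v hv} := by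
      ext x
      induction x using Projectivization.ind with
      | h w hw =>
        rw [MulAction.mem_fixedBy, smul_mk_eq_iff, Set.mem_insert_iff, Set.mem_singleton_iff,
          Projectivization.mk_eq_mk_iff', Projectivization.mk_eq_mk_iff']
        constructor
        · rintro ⟨c, -, hcw⟩
          have hwm : w ∈ Submodule.span k {u, v} := hspan ▸ Submodule.mem_top
          obtain ⟨s, t, rfl⟩ := Submodule.mem_span_pair.1 hwm
          rw [Matrix.mulVec_add, Matrix.mulVec_smul, Matrix.mulVec_smul, hMu, hMv] at hcw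
          have h3 : (s * (α - c)) • u + (t * (β - c)) • v = 0 := by
            have : (s * (α - c)) • u + (t * (β - c)) • v =
                (s • α • u + t • β • v) - c • (s • u + t • v) := by module
            rw [this, hcw, sub_self]
          obtain ⟨h4, h5⟩ := LinearIndependent.pair_iff.1 hli _ _ h3
          by_cases hs : s = 0
          · right
            exact ⟨t, by rw [hs, zero_smul, zero_add]⟩
          · left
            have hαc : α = c := sub_eq_zero.1 ((mul_eq_zero.1 h4).resolve_left hs)
            have ht : t = 0 := by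
              refine (mul_eq_zero.1 h5).resolve_right ?_
              rw [← hαc]
              exact sub_ne_zero.2 hne.symm
            exact ⟨s, by rw [ht, zero_smul, add_zero]⟩
        · rintro (⟨a, rfl⟩ | ⟨a, rfl⟩)
          · exact ⟨α, hα, by rw [Matrix.mulVec_smul, hMu, smul_comm]⟩
          · exact ⟨β, hβ, by rw [Matrix.mulVec_smul, hMv, smul_comm]⟩
    rw [hset]
    refine Set.ncard_pair ?_
    rw [Ne, Projectivization.mk_eq_mk_iff']
    rintro ⟨a, ha⟩
    obtain ⟨h6, -⟩ := LinearIndependent.pair_iff.1 hli 1 (-a) (by rw [← ha]; module)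
    exact one_ne_zero h6

end Fermat.Agent.S48.C2
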