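import Fermat.Agent.S48.Group.C2.Arith

/-! # S48 (C2): Klein's orbit count for a finite group all of whose non-trivial elements have exactly
two fixed points -/

set_option autoImplicit false

namespace Fermat.Agent.S48.C2

open MulAction

/-- the points with a non-trivial stabiliser -/
def special (Γ X : Type*) [Group Γ] [MulAction Γ X] : SubMulAction Γ X where
  carrier := {x | ∃ g : Γ, g ≠ 1 ∧ g • x = x}
  smul_mem' := by
    rintro c x ⟨g, hg, hx⟩
    refine ⟨c * g * c⁻¹, fun h => hg ?_, ?_⟩
    · have : g = c⁻¹ * (c * g * c⁻¹) * c := by group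
      rw [this, h]; group
    · rw [mul_smul, mul_smul, inv_smul_smul, hx]

theorem klein_faithful {Γ X : Type*} [Group Γ] [Finite Γ] [MulAction Γ X] [Nonempty X]
    (h : ∀ g : Γ, g ≠ 1 → (fixedBy X g).ncard = 2) :
    ∃ x : X, Nat.card Γ ≤ 12 * Nat.card (stabilizer Γ x) := by
  classical
  rcases Nat.lt_or_ge (Nat.card Γ) 2 with hN | hN
  · obtain ⟨x⟩ := ‹Nonempty X›
    refine ⟨x, ?_⟩
    have : 0 < Nat.card (stabilizer Γ x) := Nat.card_pos
    omega
  have hfinfix : ∀ g : Γ, g ≠ 1 → (fixedBy X g).Finite := fun g hg =>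
    Set.finite_of_ncard_ne_zero (by rw [h g hg]; norm_num)
  have hfin : Finite (special Γ X) := by
    have : (⋃ g ∈ {g : Γ | g ≠ 1}, fixedBy X g).Finite :=
      Set.Finite.biUnion (Set.toFinite _) fun g hg => hfinfix g hg
    refine (this.subset ?_).to_subtype
    rintro x ⟨g, hg, hx⟩
    exact Set.mem_biUnion hg hx
  have := Fintype.ofFinite Γ
  have := Fintype.ofFinite (special Γ X)
  -- fixed points in the special set
  have hfix : ∀ g : Γ, g ≠ 1 → Fintype.card (fixedBy (special Γ X) g) = 2 := by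
    intro g hg
    rw [← h g hg, ← Nat.card_eq_fintype_card, ← Nat.card_coe_set_eq]
    refine Nat.card_congr ⟨fun x => ⟨x.1.1, congrArg Subtype.val x.2⟩,
      fun x => ⟨⟨x.1, g, hg, x.2⟩, Subtype.ext x.2⟩, fun _ => rfl, fun _ => rfl⟩
  have hfix1 : Fintype.card (fixedBy (special Γ X) (1 : Γ)) = Fintype.card (special Γ X) := by
    refine Fintype.card_congr ⟨fun x => x.1, fun x => ⟨x, one_smul _ _⟩, fun _ => rfl, fun _ => rfl⟩
  have hburn := sum_card_fixedBy_eq_card_orbits_mul_card_group Γ (special Γ X)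
  have hclass := card_eq_sum_card_group_div_card_stabilizer Γ (special Γ X)
  rw [← Finset.add_sum_erase _ _ (Finset.mem_univ (1 : Γ)), hfix1,
    Finset.sum_congr rfl (fun g hg => hfix g (Finset.ne_of_mem_erase hg)), Finset.sum_const,
    Finset.card_erase_of_mem (Finset.mem_univ _), Finset.card_univ, smul_eq_mul, hclass,
    mul_comm _ 2] at hburn
  rw [Nat.card_eq_fintype_card] at hN
  obtain ⟨ω, hω⟩ := arith (Fintype.card Γ) hN
    (fun ω : Quotient (orbitRel Γ (special Γ X)) =>
      Fintype.card Γ / Fintype.card (stabilizer Γ ω.out))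
    (fun ω => Fintype.card (stabilizer Γ ω.out))
    (fun ω => Nat.div_mul_cancel (by
      have := Subgroup.card_subgroup_dvd_card (stabilizer Γ ω.out)
      rwa [Nat.card_eq_fintype_card, Nat.card_eq_fintype_card] at this))
    (fun ω => by
      obtain ⟨g, hg, hx⟩ := ω.out.2
      have : Nontrivial (stabilizer Γ ω.out) :=
        ⟨⟨⟨g, Subtype.ext hx⟩, 1, fun h => hg (congrArg Subtype.val h)⟩⟩
      exact Fintype.one_lt_card)
    hburn
  refine ⟨(ω.out : X), ?_⟩
  have hdvd : Fintype.card (stabilizer Γ ω.out) ∣ Fintype.card Γ := by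
    have := Subgroup.card_subgroup_dvd_card (stabilizer Γ ω.out)
    rwa [Nat.card_eq_fintype_card, Nat.card_eq_fintype_card] at this
  rw [← SubMulAction.stabilizer_of_subMul, Nat.card_eq_fintype_card, Nat.card_eq_fintype_card,
    ← Nat.div_mul_cancel hdvd]
  exact Nat.mul_le_mul_right _ hω

/-- **Klein's count**: a finite group acting on a set such that every element acts trivially or has
exactly two fixed points has a point stabiliser of index `≤ 12`. -/
theorem klein {Γ X : Type*} [Group Γ] [Finite Γ] [MulAction Γ X] [Nonempty X]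
    (h : ∀ g : Γ, (∀ x : X, g • x = x) ∨ (fixedBy X g).ncard = 2) :
    ∃ x : X, Nat.card Γ ≤ 12 * Nat.card (stabilizer Γ x) := by
  classical
  let φ : Γ →* Equiv.Perm X := toPermHom Γ X
  have hfinr : Finite φ.range := by
    have : Finite (Set.range φ) := Set.finite_range φ
    exact this
  have h' : ∀ σ : φ.range, σ ≠ 1 → (fixedBy X σ).ncard = 2 := by
    rintro ⟨_, g, rfl⟩ hσ
    rcases h g with hg | hg
    · exact absurd (Subtype.ext (Equiv.ext hg)) hσ
    · exact hg
  obtain ⟨x, hx⟩ := klein_faithful h'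
  refine ⟨x, ?_⟩
  have := Fintype.ofFinite Γ
  have := Fintype.ofFinite φ.range
  have horb : orbit φ.range x = orbit Γ x := by
    ext y
    constructor
    · rintro ⟨⟨_, g, rfl⟩, rfl⟩
      exact ⟨g, rfl⟩
    · rintro ⟨g, rfl⟩
      exact ⟨⟨_, g, rfl⟩, rfl⟩
  have hf1 : Finite (orbit Γ x) := Set.finite_range _
  have hf2 : Finite (orbit φ.range x) := Set.finite_range _
  have := Fintype.ofFinite (orbit Γ x)
  have := Fintype.ofFinite (orbit φ.range x)
  have e1 := card_orbit_mul_card_stabilizer_eq_card_group Γ x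
  have e2 := card_orbit_mul_card_stabilizer_eq_card_group φ.range x
  have e3 : Fintype.card (orbit φ.range x) = Fintype.card (orbit Γ x) := by
    rw [← Nat.card_eq_fintype_card, ← Nat.card_eq_fintype_card, horb]
  rw [Nat.card_eq_fintype_card, Nat.card_eq_fintype_card] at hx ⊢
  rw [← e2, e3] at hx
  have hpos : 0 < Fintype.card (stabilizer φ.range x) := Fintype.card_pos
  have h12 : Fintype.card (orbit Γ x) ≤ 12 := Nat.le_of_mul_le_mul_right hx hpos
  rw [← e1]
  exact Nat.mul_le_mul_right _ h12

end Fermat.Agent.S48.C2
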