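import Mathlib

/-! # S48 (C2): the arithmetic of Klein's orbit count -/

set_option autoImplicit false

namespace Fermat.Agent.S48.C2

theorem arith_aux1 {N n₁ n₂ n₃ e₂ e₃ : ℕ} (h1 : n₁ * 2 = N) (h2 : n₂ * e₂ = N)
    (h3 : n₃ * e₃ = N) (he2 : 2 ≤ e₂) (he2' : e₂ ≤ 3)
    (hs : n₁ + n₂ + n₃ = N + 2) : n₃ ≤ 12 := by
  have : e₂ = 2 ∨ e₂ = 3 := by omega
  rcases this with rfl | rfl
  · omega
  · by_contra hn
    have h6 : 6 * n₃ = n₃ * e₃ + 12 := by omega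
    rcases le_or_gt 6 e₃ with h | h
    · have : n₃ * 6 ≤ n₃ * e₃ := Nat.mul_le_mul_left _ h
      omega
    · have : n₃ * e₃ ≤ n₃ * 5 := Nat.mul_le_mul_left _ (by omega)
      omega

theorem arith_aux2 {N n₁ n₂ n₃ e₂ e₃ : ℕ} (h1 : n₁ * 2 = N) (h2 : n₂ * e₂ = N)
    (h3 : n₃ * e₃ = N) (he2 : 2 ≤ e₂) (he3 : 2 ≤ e₃)
    (hs : n₁ + n₂ + n₃ = N + 2) : n₂ ≤ 12 ∨ n₃ ≤ 12 := by
  rcases le_or_gt e₂ 3 with h | h
  · exact Or.inr (arith_aux1 h1 h2 h3 he2 h hs)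
  rcases le_or_gt e₃ 3 with h' | h'
  · exact Or.inl (arith_aux1 h1 h3 h2 he3 h' (by omega))
  exfalso
  have a1 : n₂ * 4 ≤ n₂ * e₂ := Nat.mul_le_mul_left _ h
  have a2 : n₃ * 4 ≤ n₃ * e₃ := Nat.mul_le_mul_left _ h'
  omega

theorem arith3 {N n₁ n₂ n₃ e₁ e₂ e₃ : ℕ} (h1 : n₁ * e₁ = N) (h2 : n₂ * e₂ = N)
    (h3 : n₃ * e₃ = N) (he1 : 2 ≤ e₁) (he2 : 2 ≤ e₂) (he3 : 2 ≤ e₃)
    (hs : n₁ + n₂ + n₃ = N + 2) : n₁ ≤ 12 ∨ n₂ ≤ 12 ∨ n₃ ≤ 12 := by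
  rcases Nat.eq_or_lt_of_le he1 with rfl | g1
  · exact Or.inr (arith_aux2 h1 h2 h3 he2 he3 hs)
  rcases Nat.eq_or_lt_of_le he2 with rfl | g2
  · rcases arith_aux2 h2 h1 h3 he1 he3 (by omega) with h | h
    · exact Or.inl h
    · exact Or.inr (Or.inr h)
  rcases Nat.eq_or_lt_of_le he3 with rfl | g3
  · rcases arith_aux2 h3 h1 h2 he1 he2 (by omega) with h | h
    · exact Or.inl h
    · exact Or.inr (Or.inl h)
  exfalso
  have a1 : n₁ * 3 ≤ n₁ * e₁ := Nat.mul_le_mul_left _ g1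
  have a2 : n₂ * 3 ≤ n₂ * e₂ := Nat.mul_le_mul_left _ g2
  have a3 : n₃ * 3 ≤ n₃ * e₃ := Nat.mul_le_mul_left _ g3
  omega

/-- the orbit count: `∑ nᵢ + 2 (N - 1) = r N`, `nᵢ eᵢ = N`, `eᵢ ≥ 2` forces a small `nᵢ`. -/
theorem arith {Ω : Type*} [Fintype Ω] (N : ℕ) (hN : 2 ≤ N) (n e : Ω → ℕ)
    (hne : ∀ i, n i * e i = N) (he : ∀ i, 2 ≤ e i)
    (hs : ∑ i, n i + 2 * (N - 1) = Fintype.card Ω * N) : ∃ i, n i ≤ 12 := by
  by_contra hcon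
  push Not at hcon
  have h2 : ∀ i, n i * 2 ≤ N := fun i => (hne i) ▸ Nat.mul_le_mul_left _ (he i)
  have hsum2 : (∑ i, n i) * 2 ≤ Fintype.card Ω * N := by
    rw [Finset.sum_mul]
    calc ∑ i, n i * 2 ≤ ∑ _i : Ω, N := Finset.sum_le_sum fun i _ => h2 i
      _ = Fintype.card Ω * N := by simp
  have hsum13 : Fintype.card Ω * 13 ≤ ∑ i, n i := by
    calc Fintype.card Ω * 13 = ∑ _i : Ω, 13 := by simp
      _ ≤ ∑ i, n i := Finset.sum_le_sum fun i _ => hcon i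
  have hr : Fintype.card Ω < 4 := by
    by_contra h
    push Not at h
    have : 4 * N ≤ Fintype.card Ω * N := Nat.mul_le_mul_right _ h
    omega
  generalize hrr : Fintype.card Ω = r at *
  interval_cases r
  · omega
  · omega
  · omega
  · let ε : Ω ≃ Fin 3 := Fintype.equivFinOfCardEq hrr
    have hsum : ∑ i, n i = n (ε.symm 0) + n (ε.symm 1) + n (ε.symm 2) := by
      rw [← Equiv.sum_comp ε.symm, Fin.sum_univ_three]
    have := arith3 (hne (ε.symm 0)) (hne (ε.symm 1)) (hne (ε.symm 2)) (he _) (he _) (he _)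
      (by omega)
    have c0 := hcon (ε.symm 0)
    have c1 := hcon (ε.symm 1)
    have c2 := hcon (ε.symm 2)
    omega

end Fermat.Agent.S48.C2
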